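import Mathlib
import Fermat.Prelude.Def_FLTPrelim_FreyPackage
import Fermat.Prelude.Def_FLTPrelim_GaloisRep
import Fermat.Prelude.Def_FLTPrelim_Modularity
import Fermat.Prelude.Def_FLTPrelim_ModularRep
import Fermat.Prelude.Def_FLTPrelim_Ramification
import Fermat.Prelude.Def_FLTPrelim_CofixedLine

set_option autoImplicit false
open WeierstrassCurve WeierstrassCurve.Affine WeierstrassCurve.Affine.Point
open CuspForm ModularFormClass UpperHalfPlane

namespace Fermat.Agent.S03

/-- Conditional wiring: S03 follows from the statements of S04, S09, S45 and S07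
(all passed as hypotheses, so this lemma is sorry-free and dependency-free). -/
theorem no_frey_of_chain (P : FreyPackage)
    (h04 : ∀ P : FreyPackage, P.freyCurve.IsModular)
    (h09 : ∀ P : FreyPackage,
      GaloisRepIsIrreducible (K := AlgebraicClosure ℚ) ℚ P.freyCurve P.p)
    (h45 : ∀ P : FreyPackage, P.freyCurve.IsModular →
      GaloisRepIsIrreducible (K := AlgebraicClosure ℚ) ℚ P.freyCurve P.p →
      ∃ f : CuspForm (CongruenceSubgroup.Gamma0 2) 2, f ≠ 0)
    (h07 : ∀ f : CuspForm (CongruenceSubgroup.Gamma0 2) 2, f = 0) : False := by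
  obtain ⟨f, hf⟩ := h45 P (h04 P) (h09 P)
  exact hf (h07 f)

end Fermat.Agent.S03
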